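import Mathlib
import Fermat.Prelude.Def_GaloisRep_LocalConditions
import Fermat.Agent.S31.Torsion

/-!
# S34 from Hecke modules of torsion points with unipotent inertia

`HeckeTorsionModulesUnip N p S q` is the geometric input of S34 in its weakest form: it is
`Fermat.Agent.S31.HeckeTorsionModules N p S` with the clause "unramified outside `S`" replaced by

  (BAD-U)  `(τ - 1)² = 0` on the module, for every `τ` in an inertia group at `q`.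

`isUnipotentOnInertiaAt_of_torsionModules` deduces the frozen statement S34 (the characteristic
polynomial of `ρ τ` is `(X - 1)²`): an element `t g` of the Hecke algebra acting on the module as
`g + χ_p(g) g⁻¹` has image `tr ρ(g)` in `T` (Frobenius density); for `τ` in inertia at `q ≠ p`
one has `χ_p(τ) = 1` and `τ + τ⁻¹ = 2`, so `tr ρ(τ) = 2`; and `det ρ(τ) = 1` by Frobenius
density and the triviality of the cyclotomic character on inertia at `q ≠ p`.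
-/

set_option autoImplicit false

namespace Fermat.Agent.S34

open CuspForm

local notation "Qb" => AlgebraicClosure ℚ
local notation "GQ" => (AlgebraicClosure ℚ ≃ₐ[ℚ] AlgebraicClosure ℚ)

/-- **Geometric interface for S34**: Hecke modules of torsion points (killed by `p ^ (k + e)`,
of finite level, with the Eichler–Shimura relation at the primes outside `S`, almost faithful)
on which every inertia element `τ` at `q` satisfies `(τ - 1)² = 0`. -/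
def HeckeTorsionModulesUnip (N : ℕ) [NeZero N] (p : ℕ) (S : Finset ℕ) (q : ℕ) : Prop :=
  ∃ (e m : ℕ), Nat.Coprime m p ∧ ∀ k : ℕ, ∃ (M : Type) (_ : AddCommGroup M)
    (_ : Module (heckeAlgebra N 2 (↑S : Set ℕ)) M)
    (gal : GQ →* Module.End (heckeAlgebra N 2 (↑S : Set ℕ)) M),
    (∀ x : M, (p ^ (k + e)) • x = 0) ∧
    (∃ L : IntermediateField ℚ Qb, FiniteDimensional ℚ L ∧
      ∀ σ : GQ, (∀ x ∈ L, σ x = x) → gal σ = 1) ∧
    (∀ (ℓ : ℕ) (hℓ : ℓ.Prime) (hℓN : ¬ ℓ ∣ N) (hℓS : ℓ ∉ (↑S : Set ℕ))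
      (A : ValuationSubring Qb) (σ : GQ), A.LiesOverPrime ℓ → A.IsFrobeniusAt σ ℓ →
      ∀ x : M, gal σ (gal σ x) -
        (heckeAlgebra.T hℓ hℓN hℓS : heckeAlgebra N 2 (↑S : Set ℕ)) • gal σ x + ℓ • x = 0) ∧
    (∀ P : ValuationSubring Qb, P.LiesOverPrime q → ∀ τ ∈ P.inertiaSubgroupIn ℚ,
      ∀ x : M, gal τ (gal τ x) - (2 : ℕ) • gal τ x + x = 0) ∧
    (∀ D : heckeAlgebra N 2 (↑S : Set ℕ), (∀ x : M, D • x = 0) →
      (m : heckeAlgebra N 2 (↑S : Set ℕ)) * D ∈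
        Ideal.span {(p : heckeAlgebra N 2 (↑S : Set ℕ)) ^ k})

section Linear

variable {R : Type*} [CommRing R]

/-- Two endomorphisms of a finite free module which are congruent modulo `I` have congruent
determinants. -/
theorem det_sub_mem {V : Type*} [AddCommGroup V] [Module R V] [Module.Free R V]
    [Module.Finite R V] (I : Ideal R) (f f' : Module.End R V)
    (h : ∀ v, f v - f' v ∈ I • (⊤ : Submodule R V)) :
    LinearMap.det f - LinearMap.det f' ∈ I := by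
  classical
  let b := Module.Free.chooseBasis R V
  rw [← LinearMap.det_toMatrix b f, ← LinearMap.det_toMatrix b f', ← Ideal.Quotient.eq,
    RingHom.map_det, RingHom.map_det]
  congr 1
  ext i j
  rw [RingHom.mapMatrix_apply, RingHom.mapMatrix_apply, Matrix.map_apply, Matrix.map_apply,
    Ideal.Quotient.eq, LinearMap.toMatrix_apply, LinearMap.toMatrix_apply, ← Finsupp.sub_apply,
    ← map_sub]
  exact S31.repr_mem_of_mem_smul_top b I (h (b j)) i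

end Linear

section Core

variable {T : Type} [CommRing T] [IsLocalRing T]

/-- If `g` and `g'` agree on a level `L` of `ρ` modulo `𝔪ⁿ`, then `ρ g ≡ ρ g'` modulo `𝔪ⁿ`. -/
theorem rho_sub_mem_of_agree (ρ : GaloisRepAdic T) (n : ℕ) (L : IntermediateField ℚ Qb)
    (hL : ∀ σ : GQ, (∀ x ∈ L, σ x = x) →
      ∀ v : ρ.V, ρ.ρ σ v - v ∈ (IsLocalRing.maximalIdeal T ^ n) • (⊤ : Submodule T ρ.V))
    (g g' : GQ) (hgg' : ∀ x ∈ L, g x = g' x) (v : ρ.V) :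
    ρ.ρ g v - ρ.ρ g' v ∈ (IsLocalRing.maximalIdeal T ^ n) • (⊤ : Submodule T ρ.V) := by
  have hfix : ∀ x ∈ L, (g'⁻¹ * g) x = x := by
    intro x hx
    rw [AlgEquiv.mul_apply, hgg' x hx]
    exact g'.symm_apply_apply x
  have e : ρ.ρ g v - ρ.ρ g' v = ρ.ρ g' (ρ.ρ (g'⁻¹ * g) v - v) := by
    rw [map_sub, ← Module.End.mul_apply, ← map_mul, mul_inv_cancel_left]
  rw [e]
  exact S31.map_mem_smul_top _ _ (hL _ hfix v)

end Core

section Hecke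

variable {p : ℕ} {N : ℕ} [NeZero N] {S : Finset ℕ}
  {𝒪 : Type} [CommRing 𝒪] [IsDomain 𝒪] [IsDiscreteValuationRing 𝒪]
  [IsAdicComplete (IsLocalRing.maximalIdeal 𝒪) 𝒪]
  {θ : CuspForm.heckeAlgebra N 2 (↑S : Set ℕ) →+* IsLocalRing.ResidueField 𝒪}
  {T : Type} [CommRing T] [IsLocalRing T] [IsNoetherianRing T]
  [IsAdicComplete (IsLocalRing.maximalIdeal T) T] [Algebra 𝒪 T] [IsLocalHom (algebraMap 𝒪 T)]
  [Module.Finite 𝒪 T] [Module.Free 𝒪 T]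

/-- `π` maps `x` with `m x ∈ (pⁿ)`, `m` prime to `p`, into `𝔪ⁿ`. -/
theorem pi_mem_of_mul_mem (hp𝒪 : (p : 𝒪) ∈ IsLocalRing.maximalIdeal 𝒪)
    (H : CuspForm.HeckeGaloisRepDatum N (↑S : Set ℕ) 𝒪 θ T) {m : ℕ} (hm : Nat.Coprime m p)
    (n : ℕ) (x : heckeAlgebra N 2 (↑S : Set ℕ))
    (hx : (m : heckeAlgebra N 2 (↑S : Set ℕ)) * x ∈
      Ideal.span {(p : heckeAlgebra N 2 (↑S : Set ℕ)) ^ n}) :
    H.π x ∈ IsLocalRing.maximalIdeal T ^ n := by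
  have hpT : (p : T) ∈ IsLocalRing.maximalIdeal T := S31.natCast_mem_maximalIdeal hp𝒪
  have hmT : IsUnit (m : T) := S31.isUnit_natCast_of_coprime hpT hm
  obtain ⟨y, hy⟩ := Ideal.mem_span_singleton'.mp hx
  have h1 : (m : T) * H.π x = H.π y * (p : T) ^ n := by
    have := congrArg H.π hy
    rw [map_mul, map_pow, map_natCast, map_mul, map_natCast] at this
    exact this.symm
  have h2 : (m : T) * H.π x ∈ IsLocalRing.maximalIdeal T ^ n := by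
    rw [h1]
    exact Ideal.mul_mem_left _ _ (Ideal.pow_mem_pow hpT n)
  obtain ⟨u, hu⟩ := hmT
  have h3 : H.π x = (↑u⁻¹ : T) * ((m : T) * H.π x) := by
    rw [← hu, ← mul_assoc, Units.inv_mul, one_mul]
  rw [h3]
  exact Ideal.mul_mem_left _ _ h2

/-- **Trace formula modulo `𝔪ⁿ`.** If `D` acts on a Hecke module of torsion points as
`g + χ_p(g) g⁻¹`, then `π D ≡ tr ρ(g)` modulo `𝔪ⁿ`. -/
theorem pi_sub_trace_mem [Fact p.Prime] (hp𝒪 : (p : 𝒪) ∈ IsLocalRing.maximalIdeal 𝒪)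
    (hpS : p ∈ S) (H : CuspForm.HeckeGaloisRepDatum N (↑S : Set ℕ) 𝒪 θ T) {m e n : ℕ}
    (hm : Nat.Coprime m p)
    {M : Type} [AddCommGroup M] [Module (heckeAlgebra N 2 (↑S : Set ℕ)) M]
    (gal : GQ →* Module.End (heckeAlgebra N 2 (↑S : Set ℕ)) M)
    (hM : ∀ x : M, (p ^ (n + e)) • x = 0)
    (hlev : ∃ L : IntermediateField ℚ Qb, FiniteDimensional ℚ L ∧
      ∀ σ : GQ, (∀ x ∈ L, σ x = x) → gal σ = 1)
    (hES : ∀ (ℓ : ℕ) (hℓ : ℓ.Prime) (hℓN : ¬ ℓ ∣ N) (hℓS : ℓ ∉ (↑S : Set ℕ))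
      (A : ValuationSubring Qb) (σ : GQ), A.LiesOverPrime ℓ → A.IsFrobeniusAt σ ℓ →
      ∀ x : M, gal σ (gal σ x) -
        (heckeAlgebra.T hℓ hℓN hℓS : heckeAlgebra N 2 (↑S : Set ℕ)) • gal σ x + ℓ • x = 0)
    (hINT : ∀ D : heckeAlgebra N 2 (↑S : Set ℕ), (∀ x : M, D • x = 0) →
      (m : heckeAlgebra N 2 (↑S : Set ℕ)) * D ∈
        Ideal.span {(p : heckeAlgebra N 2 (↑S : Set ℕ)) ^ n})
    (g : GQ) (D : heckeAlgebra N 2 (↑S : Set ℕ)) (hD : S31.Rel gal p (n + e) g D) :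
    H.π D - LinearMap.trace T H.ρ.V (H.ρ.ρ g) ∈ IsLocalRing.maximalIdeal T ^ n := by
  obtain ⟨L, hL, hLgal⟩ := hlev
  obtain ⟨L', hL', hLcyc⟩ := Fermat.Agent.ESJ.Rep.cyclo_sub_one p (n + e)
  obtain ⟨Lρ, hLρfin, hLρ⟩ := H.ρ.isAdicContinuous n
  have hfin1 : FiniteDimensional ℚ (L ⊔ L' : IntermediateField ℚ Qb) :=
    IntermediateField.finiteDimensional_sup L L'
  have hfin : FiniteDimensional ℚ (L ⊔ L' ⊔ Lρ : IntermediateField ℚ Qb) :=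
    IntermediateField.finiteDimensional_sup (L ⊔ L') Lρ
  obtain ⟨ℓ, hℓ, hℓS', A, σ, i, j, hA, hσ, hgi, -⟩ :=
    Fermat.Agent.Frob.exists_frobenius_generating (L ⊔ L' ⊔ Lρ) (S ∪ N.primeFactors) g
  have hℓS : ℓ ∉ (↑S : Set ℕ) := fun h => hℓS' (Finset.mem_union_left _ (Finset.mem_coe.mp h))
  have hℓN : ¬ ℓ ∣ N := fun h =>
    hℓS' (Finset.mem_union_right _ (Nat.mem_primeFactors.mpr ⟨hℓ, h, NeZero.ne N⟩))
  have hℓp : ℓ ≠ p := fun h => hℓS (h ▸ Finset.mem_coe.mpr hpS)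
  have hrel : S31.Rel gal p (n + e) (σ ^ i)
      (S31.lucas (heckeAlgebra.T hℓ hℓN hℓS) (ℓ : heckeAlgebra N 2 (↑S : Set ℕ)) i) :=
    S31.Rel.of_quadratic _ (Fermat.Agent.ESJ.Rep.cyclo_frobenius p hℓ hℓp A hA σ hσ)
      (hES ℓ hℓ hℓN hℓS A σ hA hσ) i
  -- `g⁻¹ σ^i` fixes the level
  have hfix : ∀ x ∈ (L ⊔ L' ⊔ Lρ : IntermediateField ℚ Qb), (g⁻¹ * σ ^ i) x = x := by
    intro x hx
    rw [AlgEquiv.mul_apply, ← hgi x hx]
    exact g.symm_apply_apply x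
  have hg : σ ^ i = g * (g⁻¹ * σ ^ i) := by rw [mul_inv_cancel_left]
  have hLle : L ≤ L ⊔ L' ⊔ Lρ := le_sup_left.trans le_sup_left
  have hL'le : L' ≤ L ⊔ L' ⊔ Lρ := le_sup_right.trans le_sup_left
  have hgal : gal (σ ^ i) = gal g := by
    have h1 : gal (g⁻¹ * σ ^ i) = 1 := hLgal _ fun x hx => hfix x (hLle hx)
    rw [hg, map_mul, h1, mul_one]
  have hcyc : ((Fermat.Agent.ESJ.Rep.cyclo p (σ ^ i) : ℤ_[p]ˣ) : ℤ_[p]) -
      ((Fermat.Agent.ESJ.Rep.cyclo p g : ℤ_[p]ˣ) : ℤ_[p]) ∈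
        Ideal.span {(p : ℤ_[p]) ^ (n + e)} := by
    obtain ⟨c, hc⟩ := hLcyc (g⁻¹ * σ ^ i) fun x hx => hfix x (hL'le hx)
    have e1 : ((Fermat.Agent.ESJ.Rep.cyclo p (σ ^ i) : ℤ_[p]ˣ) : ℤ_[p]) -
        ((Fermat.Agent.ESJ.Rep.cyclo p g : ℤ_[p]ˣ) : ℤ_[p]) =
        (p : ℤ_[p]) ^ (n + e) * (((Fermat.Agent.ESJ.Rep.cyclo p g : ℤ_[p]ˣ) : ℤ_[p]) * c) := by
      conv_lhs => rw [hg, map_mul, Units.val_mul]
      linear_combination ((Fermat.Agent.ESJ.Rep.cyclo p g : ℤ_[p]ˣ) : ℤ_[p]) * hc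
    rw [e1]
    exact Ideal.mul_mem_right _ _ (Ideal.subset_span rfl)
  have hrel' : S31.Rel gal p (n + e) g
      (S31.lucas (heckeAlgebra.T hℓ hℓN hℓS) (ℓ : heckeAlgebra N 2 (↑S : Set ℕ)) i) :=
    hrel.congr hgal hcyc
  have h1 : H.π (D - S31.lucas (heckeAlgebra.T hℓ hℓN hℓS)
      (ℓ : heckeAlgebra N 2 (↑S : Set ℕ)) i) ∈ IsLocalRing.maximalIdeal T ^ n :=
    pi_mem_of_mul_mem hp𝒪 H hm n _ (hINT _ (hD.unique hM hrel'))
  have h2 : LinearMap.trace T H.ρ.V (H.ρ.ρ (σ ^ i)) - LinearMap.trace T H.ρ.V (H.ρ.ρ g) ∈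
      IsLocalRing.maximalIdeal T ^ n :=
    S31.trace_sub_mem_of_agree H.ρ n Lρ hLρ (σ ^ i) g fun x hx =>
      (hgi x ((le_sup_right : Lρ ≤ L ⊔ L' ⊔ Lρ) hx)).symm
  rw [map_sub, ← S31.trace_frob_pow H ℓ hℓ hℓN hℓS A hA σ hσ i] at h1
  have e : H.π D - LinearMap.trace T H.ρ.V (H.ρ.ρ g) =
      (H.π D - LinearMap.trace T H.ρ.V (H.ρ.ρ (σ ^ i))) +
        (LinearMap.trace T H.ρ.V (H.ρ.ρ (σ ^ i)) - LinearMap.trace T H.ρ.V (H.ρ.ρ g)) := by ring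
  rw [e]
  exact Ideal.add_mem _ h1 h2

/-- **Determinant on inertia.** In a Hecke–Galois datum, `det ρ(τ) = 1` for `τ` in an inertia
group at a prime `q ≠ p`. -/
theorem det_eq_one_of_mem_inertia [Fact p.Prime] (hp𝒪 : (p : 𝒪) ∈ IsLocalRing.maximalIdeal 𝒪)
    (hpS : p ∈ S) (H : CuspForm.HeckeGaloisRepDatum N (↑S : Set ℕ) 𝒪 θ T) {q : ℕ}
    (hq : q.Prime) (hqp : q ≠ p) (P : ValuationSubring Qb) (hP : P.LiesOverPrime q) (τ : GQ)
    (hτ : τ ∈ P.inertiaSubgroupIn ℚ) : LinearMap.det (H.ρ.ρ τ) = 1 := by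
  have hpT : (p : T) ∈ IsLocalRing.maximalIdeal T := S31.natCast_mem_maximalIdeal hp𝒪
  rw [← sub_eq_zero, ← Ideal.mem_bot, ← Fermat.Agent.Lib.GalRep.iInf_maximalIdeal_pow_eq_bot T,
    Ideal.mem_iInf]
  intro n
  obtain ⟨L', hL', hLcyc⟩ := Fermat.Agent.ESJ.Rep.cyclo_sub_one p n
  obtain ⟨Lρ, hLρfin, hLρ⟩ := H.ρ.isAdicContinuous n
  have hfin : FiniteDimensional ℚ (L' ⊔ Lρ : IntermediateField ℚ Qb) :=
    IntermediateField.finiteDimensional_sup L' Lρ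
  obtain ⟨ℓ, hℓ, hℓS', A, σ, i, j, hA, hσ, hgi, -⟩ :=
    Fermat.Agent.Frob.exists_frobenius_generating (L' ⊔ Lρ) (S ∪ N.primeFactors) τ
  have hℓS : ℓ ∉ (↑S : Set ℕ) := fun h => hℓS' (Finset.mem_union_left _ (Finset.mem_coe.mp h))
  have hℓN : ¬ ℓ ∣ N := fun h =>
    hℓS' (Finset.mem_union_right _ (Nat.mem_primeFactors.mpr ⟨hℓ, h, NeZero.ne N⟩))
  have hℓp : ℓ ≠ p := fun h => hℓS (h ▸ Finset.mem_coe.mpr hpS)
  -- the determinant of `ρ(σ^i)` is `ℓ^i`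
  have hdetσ : LinearMap.det (H.ρ.ρ (σ ^ i)) = (ℓ : T) ^ i := by
    let b : Module.Basis (Fin 2) T H.ρ.V := Module.finBasisOfFinrankEq T H.ρ.V H.ρ.finrank_eq
    have hch := H.charpoly_frob ℓ hℓ hℓN hℓS A hA σ hσ
    rw [← LinearMap.charpoly_toMatrix (H.ρ.ρ σ) b] at hch
    obtain ⟨-, hdet⟩ := S31.trace_det_of_charpoly _ hch
    rw [map_pow, map_pow, ← LinearMap.det_toMatrix b, hdet]
  -- `ℓ^i ≡ 1` modulo `pⁿ`
  have hfix : ∀ x ∈ (L' ⊔ Lρ : IntermediateField ℚ Qb), (τ⁻¹ * σ ^ i) x = x := by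
    intro x hx
    rw [AlgEquiv.mul_apply, ← hgi x hx]
    exact τ.symm_apply_apply x
  have hmod : ℓ ^ i ≡ 1 [MOD p ^ n] := by
    refine S31.modEq_of_natCast_sub_mem ?_
    obtain ⟨c, hc⟩ := hLcyc (τ⁻¹ * σ ^ i) fun x hx =>
      hfix x ((le_sup_left : L' ≤ L' ⊔ Lρ) hx)
    have h1 : Fermat.Agent.ESJ.Rep.cyclo p (τ⁻¹ * σ ^ i) =
        Fermat.Agent.ESJ.Rep.cyclo p σ ^ i := by
      rw [map_mul, map_inv, Fermat.Agent.ESJ.Rep.cyclo_inertia p hq hqp P hP τ hτ, inv_one,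
        one_mul, map_pow]
    rw [h1, Units.val_pow_eq_pow_val,
      Fermat.Agent.ESJ.Rep.cyclo_frobenius p hℓ hℓp A hA σ hσ] at hc
    rw [Nat.cast_pow, Nat.cast_one, hc]
    exact Ideal.mul_mem_right _ _ (Ideal.subset_span rfl)
  have h1 : ((ℓ : T) ^ i - 1) ∈ IsLocalRing.maximalIdeal T ^ n := by
    obtain ⟨d, hd⟩ := (Nat.modEq_iff_dvd.mp hmod)
    have h2 : (ℓ : T) ^ i - 1 = -((p : T) ^ n * (d : T)) := by
      have := congrArg (Int.cast : ℤ → T) hd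
      push_cast at this
      linear_combination -this
    rw [h2]
    exact neg_mem (Ideal.mul_mem_right _ _ (Ideal.pow_mem_pow hpT n))
  have h2 : LinearMap.det (H.ρ.ρ τ) - LinearMap.det (H.ρ.ρ (σ ^ i)) ∈
      IsLocalRing.maximalIdeal T ^ n :=
    det_sub_mem _ _ _ fun v => rho_sub_mem_of_agree H.ρ n Lρ hLρ τ (σ ^ i)
      (fun x hx => hgi x ((le_sup_right : Lρ ≤ L' ⊔ Lρ) hx)) v
  have e : LinearMap.det (H.ρ.ρ τ) - 1 =
      (LinearMap.det (H.ρ.ρ τ) - LinearMap.det (H.ρ.ρ (σ ^ i))) + ((ℓ : T) ^ i - 1) := by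
    rw [hdetσ]; ring
  rw [e]
  exact Ideal.add_mem _ h2 h1

/-- **Trace on inertia.** With the geometric interface, `tr ρ(τ) = 2` for `τ` in an inertia
group at `q ≠ p`. -/
theorem trace_eq_two_of_mem_inertia [Fact p.Prime] {q : ℕ}
    (hmod : HeckeTorsionModulesUnip N p S q)
    (hp𝒪 : (p : 𝒪) ∈ IsLocalRing.maximalIdeal 𝒪)
    (hpS : p ∈ S) (H : CuspForm.HeckeGaloisRepDatum N (↑S : Set ℕ) 𝒪 θ T)
    (hq : q.Prime) (hqp : q ≠ p) (P : ValuationSubring Qb) (hP : P.LiesOverPrime q) (τ : GQ)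
    (hτ : τ ∈ P.inertiaSubgroupIn ℚ) : LinearMap.trace T H.ρ.V (H.ρ.ρ τ) = 2 := by
  obtain ⟨e, m, hm, hmod⟩ := hmod
  rw [← sub_eq_zero, ← Ideal.mem_bot, ← Fermat.Agent.Lib.GalRep.iInf_maximalIdeal_pow_eq_bot T,
    Ideal.mem_iInf]
  intro n
  obtain ⟨M, _, _, gal, hM, hlev, hES, hU, hINT⟩ := hmod n
  have hrel : S31.Rel gal p (n + e) τ (2 : heckeAlgebra N 2 (↑S : Set ℕ)) := by
    refine ⟨1, ?_, fun x => ?_⟩
    · rw [Fermat.Agent.ESJ.Rep.cyclo_inertia p hq hqp P hP τ hτ, Units.val_one, Nat.cast_one,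
        sub_self]
      exact Ideal.zero_mem _
    · have hxy : gal τ (gal τ⁻¹ x) = x := by
        rw [← Module.End.mul_apply, ← map_mul, mul_inv_cancel, map_one, Module.End.one_apply]
      have h1 := hU P hP τ hτ (gal τ⁻¹ x)
      rw [hxy] at h1
      have h2 : (2 : heckeAlgebra N 2 (↑S : Set ℕ)) • x = (2 : ℕ) • x := by
        rw [← Nat.cast_smul_eq_nsmul (heckeAlgebra N 2 (↑S : Set ℕ)) 2 x, Nat.cast_ofNat]
      rw [h2, one_smul]
      have h3 : (2 : ℕ) • x = gal τ x + gal τ⁻¹ x := by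
        rw [sub_add_eq_add_sub, sub_eq_zero] at h1
        exact h1.symm
      exact h3
  have h := pi_sub_trace_mem hp𝒪 hpS H hm gal hM hlev hES hINT τ 2 hrel
  rw [map_ofNat] at h
  have e' : LinearMap.trace T H.ρ.V (H.ρ.ρ τ) - 2 =
      -((2 : T) - LinearMap.trace T H.ρ.V (H.ρ.ρ τ)) := by ring
  rw [e']
  exact neg_mem h

/-- **S34 from the geometric interface** `HeckeTorsionModulesUnip`. -/
theorem isUnipotentOnInertiaAt_of_torsionModules {q : ℕ}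
    (hmod : HeckeTorsionModulesUnip N p S q) (hp : p.Prime)
    (hp𝒪 : (p : 𝒪) ∈ IsLocalRing.maximalIdeal 𝒪) (hpS : p ∈ S)
    (H : CuspForm.HeckeGaloisRepDatum N (↑S : Set ℕ) 𝒪 θ T)
    (hq : q.Prime) (hqp : q ≠ p) :
    H.ρ.IsUnipotentOnInertiaAt q := by
  have : Fact p.Prime := ⟨hp⟩
  intro P hP τ hτ
  have htr := trace_eq_two_of_mem_inertia hmod hp𝒪 hpS H hq hqp P hP τ hτ
  have hdet := det_eq_one_of_mem_inertia hp𝒪 hpS H hq hqp P hP τ hτ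
  let b : Module.Basis (Fin 2) T H.ρ.V := Module.finBasisOfFinrankEq T H.ρ.V H.ρ.finrank_eq
  rw [← LinearMap.charpoly_toMatrix (H.ρ.ρ τ) b, Matrix.charpoly_fin_two,
    ← LinearMap.trace_eq_matrix_trace T b, LinearMap.det_toMatrix, htr, hdet, map_ofNat, map_one]
  ring

end Hecke

end Fermat.Agent.S34
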