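import Mathlib
import Fermat.Agent.S31.OfCmp
import Fermat.Agent.S34.Glue
import Fermat.Agent.ESJ.Interfaces
import Fermat.Agent.Lib.TateLim

/-!
# S34 from a Tate datum with comparison data and unipotent inertia

The S34 pipeline, parallel to `S31/Quot.lean` + `S31/OfCmp.lean`:

* `heckeTorsionModulesUnip_of_actions` : commuting Hecke and Galois actions on a `ℤ_[p]`-module
  `Ta`, with `(τ - 1)² = 0` on `Ta` for the inertia elements `τ` at `q`, give
  `HeckeTorsionModulesUnip N p S q` (with `M = (ℤ_[p] / p ^ (k + e)) ⊗ Ta`);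
* `heckeTorsionModulesUnip_of_cmpData` : the same from a `TateDatum` with `CmpData`;
* `InertiaUnipotentOnTorsion N p q` : **the deliverable of the BAD layer** — `(τ - 1)² = 0` on
  the `p`-power torsion of `JZero N` for `τ` in an inertia group at `q`;
* `unip_of_levelMaps` : transfer of this relation from the torsion of `JZero N` to a Tate
  module with level maps `π n : Ta → JZero N`;
* `TateCmpUnipExists`, `S34_of` : the frozen statement S34 from "for `q ∥ N`, `q ≠ p` there is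
  a Tate datum with comparison data on which inertia at `q` is unipotent of index two".
-/

set_option autoImplicit false

namespace Fermat.Agent.S34

open CuspForm Fermat.Agent.ESJ.Rep ModularCurve
open scoped TensorProduct

local notation "Qb" => AlgebraicClosure ℚ
local notation "GQ" => (AlgebraicClosure ℚ ≃ₐ[ℚ] AlgebraicClosure ℚ)

/-- **`HeckeTorsionModulesUnip` from commuting actions on a `ℤ_[p]`-module.** -/
theorem heckeTorsionModulesUnip_of_actions {N : ℕ} [NeZero N] {p : ℕ} [Fact p.Prime]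
    {S : Finset ℕ} (q : ℕ) (e m : ℕ) (hm : Nat.Coprime m p)
    (Ta : Type) [AddCommGroup Ta] [Module ℤ_[p] Ta]
    (ψ : heckeAlgebra N 2 (↑S : Set ℕ) →+* Module.End ℤ_[p] Ta)
    (gal : GQ →* Module.End ℤ_[p] Ta)
    (hcomm : ∀ (g : heckeAlgebra N 2 (↑S : Set ℕ)) (σ : GQ), Commute (ψ g) (gal σ))
    (hcont : ∀ n : ℕ, ∃ L : IntermediateField ℚ Qb, FiniteDimensional ℚ L ∧
      ∀ σ : GQ, (∀ x ∈ L, σ x = x) → ∀ v : Ta, ∃ w : Ta, gal σ v - v = (p : ℤ_[p]) ^ n • w)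
    (hES : ∀ (ℓ : ℕ) (hℓ : ℓ.Prime) (hℓN : ¬ ℓ ∣ N) (hℓS : ℓ ∉ (↑S : Set ℕ))
      (A : ValuationSubring Qb) (σ : GQ), A.LiesOverPrime ℓ → A.IsFrobeniusAt σ ℓ →
      gal σ * gal σ - ψ (heckeAlgebra.T hℓ hℓN hℓS) * gal σ + (ℓ : Module.End ℤ_[p] Ta) = 0)
    (hunip : ∀ P : ValuationSubring Qb, P.LiesOverPrime q → ∀ τ ∈ P.inertiaSubgroupIn ℚ,
      (gal τ - 1) * (gal τ - 1) = 0)
    (hfaith : ∀ (k : ℕ) (g : heckeAlgebra N 2 (↑S : Set ℕ)),
      (∀ v : Ta, ∃ w : Ta, ψ g v = (p : ℤ_[p]) ^ (k + e) • w) →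
      (m : heckeAlgebra N 2 (↑S : Set ℕ)) * g ∈
        Ideal.span {(p : heckeAlgebra N 2 (↑S : Set ℕ)) ^ k}) :
    HeckeTorsionModulesUnip N p S q := by
  refine ⟨e, m, hm, fun k => ?_⟩
  let I : Ideal ℤ_[p] := Ideal.span {(p : ℤ_[p]) ^ (k + e)}
  let bc : Module.End ℤ_[p] Ta →+* Module.End (ℤ_[p] ⧸ I) ((ℤ_[p] ⧸ I) ⊗[ℤ_[p]] Ta) :=
    (Module.End.baseChangeHom ℤ_[p] (ℤ_[p] ⧸ I) Ta).toRingHom
  have hbc : ∀ (f : Module.End ℤ_[p] Ta) (a : ℤ_[p] ⧸ I) (v : Ta),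
      bc f (a ⊗ₜ[ℤ_[p]] v) = a ⊗ₜ[ℤ_[p]] f v := fun f a v => rfl
  let act : heckeAlgebra N 2 (↑S : Set ℕ) →+*
      Module.End (ℤ_[p] ⧸ I) ((ℤ_[p] ⧸ I) ⊗[ℤ_[p]] Ta) := bc.comp ψ
  let inst : Module (heckeAlgebra N 2 (↑S : Set ℕ)) ((ℤ_[p] ⧸ I) ⊗[ℤ_[p]] Ta) :=
    Module.compHom _ act
  have hsmul : ∀ (g : heckeAlgebra N 2 (↑S : Set ℕ)) (x : (ℤ_[p] ⧸ I) ⊗[ℤ_[p]] Ta),
      g • x = bc (ψ g) x := fun _ _ => rfl
  have hcommM : ∀ (g : heckeAlgebra N 2 (↑S : Set ℕ)) (σ : GQ)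
      (x : (ℤ_[p] ⧸ I) ⊗[ℤ_[p]] Ta), bc (gal σ) (bc (ψ g) x) = bc (ψ g) (bc (gal σ) x) := by
    intro g σ x
    have h := (hcomm g σ).map bc
    exact (congrArg (fun f : Module.End (ℤ_[p] ⧸ I) ((ℤ_[p] ⧸ I) ⊗[ℤ_[p]] Ta) => f x) h.eq).symm
  let galM : GQ →* Module.End (heckeAlgebra N 2 (↑S : Set ℕ)) ((ℤ_[p] ⧸ I) ⊗[ℤ_[p]] Ta) :=
    { toFun := fun σ =>
        { toFun := fun x => bc (gal σ) x
          map_add' := fun x y => map_add _ x y
          map_smul' := fun g x => by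
            rw [RingHom.id_apply, hsmul, hsmul]
            exact hcommM g σ x }
      map_one' := by
        refine LinearMap.ext fun x => ?_
        show bc (gal 1) x = x
        rw [map_one, map_one, Module.End.one_apply]
      map_mul' := fun σ τ => by
        refine LinearMap.ext fun x => ?_
        show bc (gal (σ * τ)) x = bc (gal σ) (bc (gal τ) x)
        rw [map_mul, map_mul, Module.End.mul_apply] }
  have hgalM : ∀ (σ : GQ) (x : (ℤ_[p] ⧸ I) ⊗[ℤ_[p]] Ta), galM σ x = bc (gal σ) x :=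
    fun _ _ => rfl
  have hpI : ((p : ℤ_[p] ⧸ I)) ^ (k + e) = 0 := by
    have h1 : Ideal.Quotient.mk I ((p : ℤ_[p]) ^ (k + e)) = 0 :=
      Ideal.Quotient.eq_zero_iff_mem.mpr (Ideal.subset_span rfl)
    rw [map_pow, map_natCast] at h1
    exact h1
  refine ⟨(ℤ_[p] ⧸ I) ⊗[ℤ_[p]] Ta, inferInstance, inst, galM, ?_, ?_, ?_, ?_, ?_⟩
  · intro x
    rw [← Nat.cast_smul_eq_nsmul (ℤ_[p] ⧸ I), Nat.cast_pow, hpI, zero_smul]
  · obtain ⟨L, hL, hLgal⟩ := hcont (k + e)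
    refine ⟨L, hL, fun σ hσ => LinearMap.ext fun x => ?_⟩
    rw [hgalM, Module.End.one_apply]
    induction x using TensorProduct.induction_on with
    | zero => rw [map_zero]
    | tmul a v =>
      obtain ⟨w, hw⟩ := hLgal σ hσ v
      have h1 : gal σ v = v + (p : ℤ_[p]) ^ (k + e) • w := by rw [← hw]; abel
      rw [hbc, h1, TensorProduct.tmul_add, TensorProduct.tmul_smul, TensorProduct.smul_tmul',
        Algebra.smul_def, Ideal.Quotient.algebraMap_eq, map_pow, map_natCast, hpI, zero_mul,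
        TensorProduct.zero_tmul, add_zero]
    | add x y hx hy => rw [map_add, hx, hy]
  · intro ℓ hℓ hℓN hℓS A σ hA hσ x
    have h := congrArg bc (hES ℓ hℓ hℓN hℓS A σ hA hσ)
    rw [map_add, map_sub, map_mul, map_mul, map_natCast, map_zero] at h
    have h' := congrArg (fun f : Module.End (ℤ_[p] ⧸ I) ((ℤ_[p] ⧸ I) ⊗[ℤ_[p]] Ta) => f x) h
    simp only [LinearMap.add_apply, LinearMap.sub_apply, Module.End.mul_apply,
      LinearMap.zero_apply, Module.End.natCast_apply] at h'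
    rw [hgalM, hgalM, hsmul]
    exact h'
  · intro P hP τ hτ x
    have h := congrArg bc (hunip P hP τ hτ)
    rw [map_mul, map_sub, map_one, map_zero] at h
    have h' := congrArg (fun f : Module.End (ℤ_[p] ⧸ I) ((ℤ_[p] ⧸ I) ⊗[ℤ_[p]] Ta) => f x) h
    simp only [Module.End.mul_apply, LinearMap.sub_apply, Module.End.one_apply,
      LinearMap.zero_apply, map_sub] at h'
    rw [hgalM, hgalM, two_nsmul, ← h']
    abel
  · intro g hg
    refine hfaith k g fun v => ?_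
    have h1 : bc (ψ g) ((1 : ℤ_[p] ⧸ I) ⊗ₜ[ℤ_[p]] v) = 0 := by
      rw [← hsmul]
      exact hg _
    rw [hbc] at h1
    have h2 := congrArg (TensorProduct.quotTensorEquivQuotSMul Ta I) h1
    rw [TensorProduct.quotTensorEquivQuotSMul_mk_one_tmul, map_zero,
      Submodule.Quotient.mk_eq_zero] at h2
    rw [Submodule.ideal_span_singleton_smul, Submodule.mem_smul_pointwise_iff_exists] at h2
    obtain ⟨w, -, hw⟩ := h2
    exact ⟨w, hw.symm⟩

/-- **`HeckeTorsionModulesUnip` from a Tate datum with comparison data** on which the inertia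
elements at `q` satisfy `(τ - 1)² = 0`. -/
theorem heckeTorsionModulesUnip_of_cmpData {p N : ℕ} [Fact p.Prime] [NeZero N]
    (D : TateDatum p N) (C : CmpData p N D.Ta D.hecke) (S : Finset ℕ) (hpS : p ∈ S) (q : ℕ)
    (hunip : ∀ P : ValuationSubring Qb, P.LiesOverPrime q → ∀ τ ∈ P.inertiaSubgroupIn ℚ,
      (D.gal τ - 1) * (D.gal τ - 1) = 0) :
    HeckeTorsionModulesUnip N p S q := by
  have hp : p.Prime := Fact.out
  obtain ⟨m₀, hm₀, hsat⟩ :=
    S31.exists_sat_index (S31.phiHom C (↑S : Set ℕ)) (S31.phiHom_injective C _)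
  obtain ⟨e, m, hpm, hm₀eq⟩ := Nat.exists_eq_pow_mul_and_not_dvd hm₀.ne' p hp.ne_one
  have hcop : Nat.Coprime m p := ((Nat.Prime.coprime_iff_not_dvd hp).mpr hpm).symm
  refine heckeTorsionModulesUnip_of_actions q e m hcop D.Ta (S31.psiHom C (↑S : Set ℕ)) D.gal ?_
    D.gal_continuous ?_ hunip ?_
  · intro g σ
    induction g using S31.hecke_induction with
    | hT ℓ hℓ hℓN hℓS =>
      rw [S31.psiHom_T]
      exact D.hecke_gal ⟨ℓ, hℓ⟩ σ
    | hU q hq hqN hqS =>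
      rw [S31.psiHom_U]
      exact D.hecke_gal ⟨q, hq⟩ σ
    | hint n =>
      rw [map_intCast]
      exact Int.cast_commute n _
    | hadd x y hx hy =>
      rw [map_add]
      exact hx.add_left hy
    | hmul x y hx hy =>
      rw [map_mul]
      exact hx.mul_left hy
  · intro ℓ hℓ hℓN hℓS A σ hA hσ
    have hℓp : ℓ ≠ p := fun h => hℓS (h ▸ Finset.mem_coe.mpr hpS)
    rw [S31.psiHom_T]
    exact D.eichlerShimura ⟨ℓ, hℓ⟩ hℓN hℓp A hA σ hσ
  · intro k g hg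
    have hdiv : ∀ h : C.H, ∃ h' : C.H, S31.phiHom C (↑S : Set ℕ) g h = (p ^ (k + e)) • h' := by
      intro h
      obtain ⟨w, hw⟩ := hg (C.cmpTa.symm ((1 : ℤ_[p]) ⊗ₜ[ℤ] h))
      rw [S31.psiHom_apply, LinearEquiv.apply_symm_apply, LinearMap.baseChange_tmul] at hw
      have h1 := congrArg C.cmpTa hw
      rw [LinearEquiv.apply_symm_apply, map_smul] at h1
      exact S31.exists_eq_smul_of_one_tmul (k + e) _ _ h1
    obtain ⟨D', hD'⟩ := hsat g (p ^ (k + e)) hdiv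
    rw [hm₀eq] at hD'
    have h2 : (p ^ e) • ((m : heckeAlgebra N 2 (↑S : Set ℕ)) * g) =
        (p ^ e) • ((p : heckeAlgebra N 2 (↑S : Set ℕ)) ^ k * D') := by
      rw [nsmul_eq_mul, nsmul_eq_mul]
      push_cast at hD' ⊢
      rw [← mul_assoc, hD']
      ring
    have h3 := nsmul_right_injective (pow_ne_zero e hp.ne_zero) h2
    rw [Ideal.mem_span_singleton']
    exact ⟨D', by rw [h3, mul_comm]⟩

/-- **BAD-U, torsion form (the deliverable of the BAD layer)**: every element `τ` of an inertia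
group at `q` satisfies `(τ - 1)² = 0` on the `p`-power torsion of `J₀(N)(ℚ̄)`. -/
def InertiaUnipotentOnTorsion (N p q : ℕ) [NeZero N] : Prop :=
  ∀ P : ValuationSubring Qb, P.LiesOverPrime q → ∀ τ ∈ P.inertiaSubgroupIn ℚ,
    ∀ x : JZero N, (∃ n : ℕ, p ^ n • x = 0) → τ • τ • x - (2 : ℕ) • τ • x + x = 0

/-- Transfer of `(τ - 1)² = 0` from the torsion of `JZero N` to a Tate module with level maps
`π n : Ta → JZero N` compatible with the Galois actions. -/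
theorem unip_of_levelMaps {p N q : ℕ} [Fact p.Prime] [NeZero N] {Ta : Type} [AddCommGroup Ta]
    [Module ℤ_[p] Ta] [Module.Free ℤ_[p] Ta] (gal : GQ →* Module.End ℤ_[p] Ta)
    (π : ℕ → Ta →+ JZero N)
    (hK : ∀ n t, π n t = 0 ↔ ∃ w : Ta, t = (p : ℤ_[p]) ^ n • w)
    (hgal : ∀ (σ : GQ) (n : ℕ) (t : Ta), π n (gal σ t) = σ • π n t)
    (hJ : InertiaUnipotentOnTorsion N p q) :
    ∀ P : ValuationSubring Qb, P.LiesOverPrime q → ∀ τ ∈ P.inertiaSubgroupIn ℚ,
      (gal τ - 1) * (gal τ - 1) = 0 := by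
  intro P hP τ hτ
  refine Fermat.Agent.Lib.TateLim.linearMap_ext π hK fun n t => ?_
  have h := hJ P hP τ hτ (π n t) ⟨n, Fermat.Agent.Lib.TateLim.pow_nsmul_map π hK n t⟩
  have e : ((gal τ - 1) * (gal τ - 1)) t = gal τ (gal τ t) - gal τ t - (gal τ t - t) := by
    rw [Module.End.mul_apply, LinearMap.sub_apply, Module.End.one_apply, LinearMap.sub_apply,
      Module.End.one_apply, map_sub]
  rw [e, LinearMap.zero_apply, map_zero, map_sub, map_sub, map_sub, hgal, hgal, ← h, two_nsmul]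
  abel

/-- **What S34 needs from the lower layers** (ESJ trunk + BAD): for `q ∥ N`, `q ≠ p`, a Tate
datum with comparison data on which every inertia element at `q` satisfies `(τ - 1)² = 0`. -/
def TateCmpUnipExists : Prop :=
  ∀ (p N q : ℕ) [Fact p.Prime] [NeZero N], q.Prime → q ≠ p → q ∣ N → ¬ q ^ 2 ∣ N →
    ∃ D : TateDatum p N, Nonempty (CmpData p N D.Ta D.hecke) ∧
      ∀ P : ValuationSubring Qb, P.LiesOverPrime q → ∀ τ ∈ P.inertiaSubgroupIn ℚ,
        (D.gal τ - 1) * (D.gal τ - 1) = 0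

/-- **S34, conditional form**: the frozen statement S34 from `TateCmpUnipExists`. -/
theorem S34_of (hcmp : TateCmpUnipExists)
    {𝒪 : Type} [CommRing 𝒪] [IsDomain 𝒪] [IsDiscreteValuationRing 𝒪]
    [IsAdicComplete (IsLocalRing.maximalIdeal 𝒪) 𝒪]
    {p : ℕ} (hp : p.Prime) (hp𝒪 : (p : 𝒪) ∈ IsLocalRing.maximalIdeal 𝒪)
    {N : ℕ} [NeZero N] {S : Finset ℕ} (hpS : p ∈ S)
    {θ : CuspForm.heckeAlgebra N 2 (↑S : Set ℕ) →+* IsLocalRing.ResidueField 𝒪}
    {T : Type} [CommRing T] [IsLocalRing T] [IsNoetherianRing T]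
    [IsAdicComplete (IsLocalRing.maximalIdeal T) T] [Algebra 𝒪 T] [IsLocalHom (algebraMap 𝒪 T)]
    [Module.Finite 𝒪 T] [Module.Free 𝒪 T]
    (H : CuspForm.HeckeGaloisRepDatum N (↑S : Set ℕ) 𝒪 θ T)
    (q : ℕ) (hq : q.Prime) (hqp : q ≠ p) (hqN : q ∣ N) (hq2 : ¬ q ^ 2 ∣ N) :
    H.ρ.IsUnipotentOnInertiaAt q := by
  have : Fact p.Prime := ⟨hp⟩
  obtain ⟨D, ⟨C⟩, hunip⟩ := hcmp p N q hq hqp hqN hq2
  exact isUnipotentOnInertiaAt_of_torsionModules
    (heckeTorsionModulesUnip_of_cmpData D C S hpS q hunip) hp hp𝒪 hpS H hq hqp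

end Fermat.Agent.S34
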